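import Fermat.Agent.S20.Basics
import Fermat.Agent.S23.Trans

/-!
# S20 / chapter E2 (auxiliary lemmas): transformation law of `det (Vmat κ f z)` and the fact that
a nowhere vanishing holomorphic function on `ℍ` with the level-one transformation law of weight
`w` which has a nonzero limit at `i∞` must have weight `w = 0`.
-/

set_option autoImplicit false

open UpperHalfPlane ModularForm CongruenceSubgroup
open scoped MatrixGroups ModularForm Manifold
open Fermat.Agent.S23

namespace Fermat.Agent.S20.SumWAux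

variable {N : ℕ} [NeZero N]

/-- A permutation of `Fin n` has at most `n` orbits. -/
theorem numOrbits_le {n : ℕ} (σ : Equiv.Perm (Fin n)) : numOrbits σ ≤ n := by
  unfold numOrbits
  have h := Nat.card_le_card_of_surjective
    (Quotient.mk'' : Fin n → MulAction.orbitRel.Quotient (Subgroup.zpowers σ) (Fin n))
    Quotient.mk''_surjective
  simpa using h

/-- Matrix form of the transformation law of the matrix of conjugates. -/
theorem Vmat_smul_eq (κ : Fin (psi N) → ℕ) (f : ∀ i, ModularForm (Gam N) (κ i)) (γ : SL(2, ℤ))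
    (z : ℍ) :
    Vmat κ f (γ • z) = Matrix.diagonal (fun i => denom γ z ^ κ i) *
      (Vmat κ f z).submatrix id (perm N γ) := by
  ext i j
  rw [Matrix.diagonal_mul, Matrix.submatrix_apply, Vmat_smul, zpow_natCast]
  rfl

/-- Transformation law of the determinant of the matrix of conjugates. -/
theorem det_Vmat_smul (κ : Fin (psi N) → ℕ) (f : ∀ i, ModularForm (Gam N) (κ i)) (γ : SL(2, ℤ))
    (z : ℍ) :
    (Vmat κ f (γ • z)).det =
      denom γ z ^ (∑ i, κ i) * ((((Equiv.Perm.sign (perm N γ) : ℤˣ) : ℤ) : ℂ) *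
        (Vmat κ f z).det) := by
  rw [Vmat_smul_eq, Matrix.det_mul, Matrix.det_diagonal, Matrix.det_permute',
    Finset.prod_pow_eq_pow_sum]

/-- Transformation law of the square of the determinant of the matrix of conjugates. -/
theorem det_Vmat_sq_smul (κ : Fin (psi N) → ℕ) (f : ∀ i, ModularForm (Gam N) (κ i))
    (γ : SL(2, ℤ)) (z : ℍ) :
    (Vmat κ f (γ • z)).det ^ 2 = denom γ z ^ (2 * ∑ i, κ i) * (Vmat κ f z).det ^ 2 := by
  rw [det_Vmat_smul]
  have h : ((((Equiv.Perm.sign (perm N γ) : ℤˣ) : ℤ) : ℂ)) ^ 2 = 1 := by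
    rcases Int.units_eq_one_or (Equiv.Perm.sign (perm N γ)) with h | h <;> simp [h]
  rw [mul_pow, mul_pow, h, one_mul, ← pow_mul, mul_comm (∑ i, κ i) 2]

/-- The determinant of the matrix of conjugates is holomorphic. -/
theorem mdiff_det_Vmat (κ : Fin (psi N) → ℕ) (f : ∀ i, ModularForm (Gam N) (κ i)) :
    MDiff (fun z => (Vmat κ f z).det) :=
  TransAux.mdiff_det (fun z => Vmat κ f z) (fun i j => cj_mdiff (f i) j)

/-- Transformation law of the discriminant function. -/
theorem Δf_smul (γ : SL(2, ℤ)) (z : ℍ) : Δf (γ • z) = denom γ z ^ (12 : ℤ) * Δf z :=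
  SlashInvariantForm.slash_action_eqn'' (Γ := 𝒮ℒ) CuspForm.discriminant
    (γ := Matrix.SpecialLinearGroup.mapGL ℝ γ) ⟨γ, rfl⟩ z

/-- The discriminant function is holomorphic. -/
theorem mdiff_Δf : MDiff Δf := CuspForm.discriminant.holo'

/-- A nowhere vanishing holomorphic function on `ℍ` with the level-one transformation law of
weight `w` which is bounded at `i∞` has weight `w ≥ 0`. -/
theorem weight_nonneg (w : ℤ) (Q : ℍ → ℂ) (hol : MDiff Q)
    (inv : ∀ γ : SL(2, ℤ), ∀ z : ℍ, Q (γ • z) = denom γ z ^ w * Q z)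
    (hne : ∀ z, Q z ≠ 0) (c : ℂ) (hlim : Filter.Tendsto Q atImInfty (nhds c)) : 0 ≤ w := by
  by_contra hw
  rw [not_le] at hw
  obtain ⟨g, hg⟩ := exists_levelOne_of w Q hol inv (hlim.isBigO_one ℝ)
  have h0 := ModularFormClass.levelOne_neg_weight_eq_zero hw g
  rw [hg] at h0
  exact hne UpperHalfPlane.I (by rw [h0]; rfl)

/-- A nowhere vanishing holomorphic function on `ℍ` with the level-one transformation law of
weight `w` which has a nonzero limit at `i∞` has weight `w = 0`. -/
theorem weight_eq_zero (w : ℤ) (Q : ℍ → ℂ) (hol : MDiff Q)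
    (inv : ∀ γ : SL(2, ℤ), ∀ z : ℍ, Q (γ • z) = denom γ z ^ w * Q z)
    (hne : ∀ z, Q z ≠ 0) (c : ℂ) (hc : c ≠ 0)
    (hlim : Filter.Tendsto Q atImInfty (nhds c)) : w = 0 := by
  have h1 := weight_nonneg w Q hol inv hne c hlim
  have h2 : 0 ≤ -w := by
    refine weight_nonneg (-w) Q⁻¹ (hol.inv hne) ?_ (fun z => inv_ne_zero (hne z)) c⁻¹
      (hlim.inv₀ hc)
    intro γ z
    rw [Pi.inv_apply, Pi.inv_apply, inv γ z, mul_inv, zpow_neg]
  omega

end Fermat.Agent.S20.SumWAux
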